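import Fermat.Agent.LT.T3.H736.ASSpec
import Fermat.Agent.LT.T1.Spec

/-!
# Row LT, tower T3, leaf T3.18a.4 = AS.4 `NIntC`: A CUT INTO EIGHT SUB-LEAVES
(helper893, HELPER for the owner of AS.4; use or ignore)

OFF-MAIN.  Definitions and frozen Props only; the PROVED top is `NIntTop.lean`:
`nIntC_of893 : IwasawaFormC K → PureUpperC K → OutsideCosetC K → AffineC K → SplitC K →
LocValFinC K → LocValInfC K → ProdFormC K → AS.NIntC K` (`AS.NIntC` VERBATIM, ASSpec of helper736,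
sha256 `a661c778`).  Vocabulary: `A0.lean` (helper556), `T3/Spec.lean`, `T3/EKSpec.lean`
(helper14), `T3/H736/ASSpec.lean` (helper736), `T1/Spec.lean` (helper54), byte-identical copies.
Every leaf may be delivered in the form `T1.T1Out K → Leaf` (tower T1 is closed).

## The proof of `NIntC` (memo helper14 §5 (i), memo helper736 AS.4)

`g⁻¹ n(x) γ₀ʲ g' = k₁ [[c₁ αʲ, a x + r_j], [0, c₂]] k'` with `k₁, k' ∈ K⁰` (**N.1**, Iwasawa).
The pure tensor at this point is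
`1[OutsideU] · f₀([[c₁ αʲ, X], [0, c₂]]_{v₀}) · ∏_w F_w([[c₁ αʲ, X], [0, c₂]]_w)`, `X = a x + r_j`
(**N.2**, bi-invariance at `v₀` and at the infinite places).  The condition `OutsideU` does not
depend on `j` and cuts out the empty set or a coset `X₀ + E₀` of the open subgroup
`E₀ = {X : X_v ∈ 𝔫 𝒪_v for all finite v ≠ v₀}` (**N.3**: `U(𝔫)_v` is normal in `GL₂(𝒪_v)`,
`α ≡ 1 mod 𝔫` is a unit outside `v₀`).  Affine substitution `X = a x + r` (**N.4**, uniqueness of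
the Haar measure), splitting of the Haar measure of `𝔸_K` at `S' = {v₀} ∪ S_∞` on `E₀` (**N.5**,
uniqueness of the Haar measure of `K_{v₀} × ∏_w ℂ`), the local `N`-integrals (**N.6**, **N.7**)
and the product formula `q^{-n/2} ∏_w |α|_w = 1` (**N.8**).
-/

set_option autoImplicit false
set_option linter.style.haveILetI false

open IsDedekindDomain NumberField MeasureTheory
open Fermat.Agent.LT.H556.A0

noncomputable section

namespace Fermat.Agent.LT.T3.AS.N893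

variable (K : Type) [Field K] [NumberField K]

/-! ## Vocabulary -/

/-- The component of an idele at the finite place `v`. -/
def finU (v : HeightOneSpectrum (𝓞 K)) : (Adl K)ˣ →* (v.adicCompletion K)ˣ :=
  Units.map (finHom K v).toMonoidHom

/-- The component of an idele at the infinite place `w`, in `ℂ`. -/
def infU (w : InfinitePlace K) : (Adl K)ˣ →* ℂˣ :=
  Units.map (infHom K w).toMonoidHom

theorem finU_coe (v : HeightOneSpectrum (𝓞 K)) (c : (Adl K)ˣ) :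
    ((finU K v c : (v.adicCompletion K)ˣ) : v.adicCompletion K) = finHom K v (c : Adl K) := rfl

theorem infU_coe (w : InfinitePlace K) (c : (Adl K)ˣ) :
    ((infU K w c : ℂˣ) : ℂ) = infHom K w (c : Adl K) := rfl

/-- The order at `v₀` of an idele. -/
def ordA (v₀ : HeightOneSpectrum (𝓞 K)) (c : (Adl K)ˣ) : ℤ :=
  ordv v₀ ((finU K v₀ c : (v₀.adicCompletion K)ˣ) : v₀.adicCompletion K)

/-- The open subgroup `E₀ = {X : X_v ∈ 𝔫 𝒪_v for all finite v ≠ v₀}` of `𝔸_K`. -/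
def outGrp (𝔫 : Ideal (𝓞 K)) (v₀ : HeightOneSpectrum (𝓞 K)) : Set (Adl K) :=
  {X | ∀ v : HeightOneSpectrum (𝓞 K), v ≠ v₀ → finHom K v X ∈ idealClosure 𝔫 v}

/-- The hypotheses of `AS.NIntC` on `(𝔫, v₀, a₀, n, α)`. -/
structure Frame (𝔫 : Ideal (𝓞 K)) (v₀ : HeightOneSpectrum (𝓞 K)) (a₀ : 𝓞 K) (n : ℕ)
    (α : Kˣ) : Prop where
  level : 𝔫 ≠ ⊥
  prime : ¬ v₀.asIdeal ∣ 𝔫
  pos : 0 < n
  span : Ideal.span {a₀} = v₀.asIdeal ^ n
  cong : a₀ - 1 ∈ 𝔫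
  coe : (α : K) = algebraMap (𝓞 K) K a₀

/-! ## The eight sub-leaves -/

/-- **N.1 (Iwasawa form; pure algebra from `T1.IwasawaC`).**  `g = b₁ κ₁`, `g' = b' κ'`:
`k₁ = κ₁⁻¹`, `k' = κ'`, `c₁ = s₁⁻¹ s'`, `c₂ = t₁⁻¹ t'`, `a = s₁⁻¹ t'`,
`r_j = s₁⁻¹ αʲ y' - s₁⁻¹ y₁ t₁⁻¹ t'` for `b₁ = [[s₁, y₁], [0, t₁]]`, `b' = [[s', y'], [0, t']]`. -/
def IwasawaFormC : Prop :=
  ∀ (α : Kˣ) (g g' : G K), ∃ (k₁ k' : G K) (c₁ c₂ a : (Adl K)ˣ),
    T1.IsStdCompact K k₁ ∧ T1.IsStdCompact K k' ∧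
    ∀ j : ℤ, ∃ r : Adl K, ∀ x : Adl K,
      g⁻¹ * unip K x * torK K α ^ j * g'
        = k₁ * upperGL (c₁ * T1.ratUnit K α ^ j) c₂ ((a : Adl K) * x + r) * k'

open Classical in
/-- **N.2 (the pure tensor on `K⁰ B K⁰`).**  Bi-invariance of `f₀` under `GL₂(𝒪_{v₀})` and of
`F_w` under `U(2)`; `finGL`, `infGL` are multiplicative and map `upperGL` to `upperGL`. -/
def PureUpperC : Prop :=
  ∀ (𝔫 : Ideal (𝓞 K)) (v₀ : HeightOneSpectrum (𝓞 K))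
    (f₀ : GL (Fin 2) (v₀.adicCompletion K) → ℂ) (F : InfinitePlace K → GL (Fin 2) ℂ → ℂ),
    IsBiIntInv v₀ f₀ → (∀ w, IsCplxTest (F w)) →
    ∀ (k₁ k' : G K), T1.IsStdCompact K k₁ → T1.IsStdCompact K k' →
    ∀ (c₁ c₂ : (Adl K)ˣ) (X : Adl K),
      pureFn K 𝔫 v₀ f₀ F (k₁ * upperGL c₁ c₂ X * k')
        = (if OutsideU K 𝔫 v₀ (k₁ * upperGL c₁ c₂ X * k') then (1 : ℂ) else 0)
          * f₀ (upperGL (finU K v₀ c₁) (finU K v₀ c₂) (finHom K v₀ X))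
          * ∏ w : InfinitePlace K, F w (upperGL (infU K w c₁) (infU K w c₂) (infHom K w X))

/-- **N.3 (the condition outside `S'`).**  If `OutsideU` holds at `(j, X)`, then it holds at
`(j', X')` iff `X' - X ∈ E₀`.  (`h' = h · k'⁻¹ (m⁻¹ m') k'`,
`m⁻¹ m' = [[α^{j'-j}, (c₁ αʲ)⁻¹ (X' - X)], [0, 1]]`; `U(𝔫)_v` is normal in `GL₂(𝒪_v)`; `α` is a
unit at `v ≠ v₀` and `α ≡ 1 mod 𝔫`; `(c₁ αʲ)_v` is a unit of `𝒪_v` because `m_v ∈ GL₂(𝒪_v)`.) -/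
def OutsideCosetC : Prop :=
  ∀ (𝔫 : Ideal (𝓞 K)) (v₀ : HeightOneSpectrum (𝓞 K)) (a₀ : 𝓞 K) (n : ℕ) (α : Kˣ),
    Frame K 𝔫 v₀ a₀ n α →
    ∀ (k₁ k' : G K), T1.IsStdCompact K k₁ → T1.IsStdCompact K k' →
    ∀ (c₁ c₂ : (Adl K)ˣ) (j j' : ℤ) (X X' : Adl K),
      OutsideU K 𝔫 v₀ (k₁ * upperGL (c₁ * T1.ratUnit K α ^ j) c₂ X * k') →
      (OutsideU K 𝔫 v₀ (k₁ * upperGL (c₁ * T1.ratUnit K α ^ j') c₂ X' * k')
        ↔ X' - X ∈ outGrp K 𝔫 v₀)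

/-- **N.4 (affine substitution).**  `x ↦ a x + r` multiplies the Haar integral by a constant
`c(a)` (the image of a Haar measure under a topological automorphism is a Haar measure;
uniqueness; the value `c(a) = ‖a‖⁻¹` is not needed). -/
def AffineC : Prop :=
  letI : MeasurableSpace (Adl K) := borel (Adl K)
  ∀ ν : Measure (Adl K), ν.IsAddHaarMeasure → ∀ a : (Adl K)ˣ, ∃ c : ℂ,
    ∀ (r : Adl K) (Q : Adl K → ℂ), Integrable Q ν →
      Integrable (fun x : Adl K => Q ((a : Adl K) * x + r)) ν ∧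
        ∫ x, Q ((a : Adl K) * x + r) ∂ν = c * ∫ X, Q X ∂ν

/-- **N.5 (splitting of the Haar measure at `S' = {v₀} ∪ S_∞`).**  `E₀` is an open subgroup of
`𝔸_K`, `E₀ = ∏_w K_w × K_{v₀} × ∏_{v ≠ v₀} 𝔫 𝒪_v`; the image of `ν|_{E₀}` under
`X ↦ (X_{v₀}, (X_w)_w)` is a Haar measure of `K_{v₀} × ∏_w ℂ` (finite on compact sets because
`∏_{v ≠ v₀} 𝔫 𝒪_v` is compact), hence a multiple of `ν₀ × ∏_w (Lebesgue)`; Fubini. -/
def SplitC : Prop :=
  letI : MeasurableSpace (Adl K) := borel (Adl K)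
  (∀ w : InfinitePlace K, w.IsComplex) →
  ∀ ν : Measure (Adl K), ν.IsAddHaarMeasure →
  ∀ 𝔫 : Ideal (𝓞 K), 𝔫 ≠ ⊥ → ∀ v₀ : HeightOneSpectrum (𝓞 K),
    letI : MeasurableSpace (v₀.adicCompletion K) := borel (v₀.adicCompletion K)
    ∃ ν₀ : Measure (v₀.adicCompletion K), ν₀.IsAddHaarMeasure ∧ ∃ c₀ : ℂ,
      ∀ (φ₀ : v₀.adicCompletion K → ℂ) (φ : InfinitePlace K → ℂ → ℂ),
        Continuous φ₀ → HasCompactSupport φ₀ →
        (∀ w, Continuous (φ w)) → (∀ w, HasCompactSupport (φ w)) →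
        Integrable (fun X : Adl K => (outGrp K 𝔫 v₀).indicator (fun _ => (1 : ℂ)) X
          * φ₀ (finHom K v₀ X) * ∏ w : InfinitePlace K, φ w (infHom K w X)) ν ∧
        ∫ X, (outGrp K 𝔫 v₀).indicator (fun _ => (1 : ℂ)) X
            * φ₀ (finHom K v₀ X) * ∏ w : InfinitePlace K, φ w (infHom K w X) ∂ν
          = c₀ * (∫ x, φ₀ x ∂ν₀) * ∏ w : InfinitePlace K, ∫ z : ℂ, φ w z

/-- **N.6 (the local `N`-integral at `v₀`).**  `HasSatakeN` at `c₁' = (c₁ αʲ)_{v₀}`, `c₂' =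
(c₂)_{v₀}`; `ordv` is additive and `ordv α = n`; invariance of `ν₀` under the translation by `t`;
`x ↦ f₀ [[c₁', x], [0, c₂']]` is locally constant (`f₀` is right `GL₂(𝒪)`-invariant) of compact
support (finitely many cosets). -/
def LocValFinC : Prop :=
  ∀ (𝔫 : Ideal (𝓞 K)) (v₀ : HeightOneSpectrum (𝓞 K)) (a₀ : 𝓞 K) (n : ℕ) (α : Kˣ),
    Frame K 𝔫 v₀ a₀ n α →
    letI : MeasurableSpace (v₀.adicCompletion K) := borel (v₀.adicCompletion K)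
    ∀ ν₀ : Measure (v₀.adicCompletion K), ν₀.IsAddHaarMeasure →
    ∀ (f₀ : GL (Fin 2) (v₀.adicCompletion K) → ℂ) (A : ℤ × ℤ → ℂ),
      IsBiIntInv v₀ f₀ → (∃ R : Finset (GL (Fin 2) (v₀.adicCompletion K)), IsRepSys v₀ f₀ R) →
      HasSatakeN v₀ f₀ A →
      ∀ (c₁ c₂ : (Adl K)ˣ) (j : ℤ) (t : v₀.adicCompletion K),
        Continuous (fun x : v₀.adicCompletion K =>
          f₀ (upperGL (finU K v₀ (c₁ * T1.ratUnit K α ^ j)) (finU K v₀ c₂) (x + t))) ∧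
        HasCompactSupport (fun x : v₀.adicCompletion K =>
          f₀ (upperGL (finU K v₀ (c₁ * T1.ratUnit K α ^ j)) (finU K v₀ c₂) (x + t))) ∧
        ∫ x, f₀ (upperGL (finU K v₀ (c₁ * T1.ratUnit K α ^ j)) (finU K v₀ c₂) (x + t)) ∂ν₀
          = ((ν₀ (v₀.adicCompletionIntegers K : Set (v₀.adicCompletion K))).toReal : ℂ)
            * (((Ideal.absNorm v₀.asIdeal : ℝ) ^
                (-(((ordA K v₀ c₁ + ordA K v₀ c₂ : ℤ) : ℝ)) / 2) : ℝ) : ℂ)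
            * ((((Ideal.absNorm v₀.asIdeal : ℝ) ^ (-(n : ℝ) / 2)) ^ j : ℝ) : ℂ)
            * A (ordA K v₀ c₁ + j * n, ordA K v₀ c₂)

/-- **N.7 (the local `N`-integral at a complex place).**  `HasAbelN` at `c₁' = (c₁ αʲ)_w`,
`c₂' = (c₂)_w`; `‖α_w‖ = w α` (`extensionEmbedding` is isometric); translation by `t`;
`z ↦ F [[c₁', z], [0, c₂']]` is continuous of compact support. -/
def LocValInfC : Prop :=
  ∀ (α : Kˣ) (w : InfinitePlace K) (F : GL (Fin 2) ℂ → ℂ) (β : ℝ × ℝ → ℂ),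
    IsCplxTest F → HasAbelN F β →
    ∀ (c₁ c₂ : (Adl K)ˣ) (j : ℤ) (t : ℂ),
      Continuous (fun z : ℂ =>
        F (upperGL (infU K w (c₁ * T1.ratUnit K α ^ j)) (infU K w c₂) (z + t))) ∧
      HasCompactSupport (fun z : ℂ =>
        F (upperGL (infU K w (c₁ * T1.ratUnit K α ^ j)) (infU K w c₂) (z + t))) ∧
      ∫ z : ℂ, F (upperGL (infU K w (c₁ * T1.ratUnit K α ^ j)) (infU K w c₂) (z + t))
        = ((‖((infU K w c₁ : ℂˣ) : ℂ)‖ * ‖((infU K w c₂ : ℂˣ) : ℂ)‖ * (w (α : K)) ^ j : ℝ) : ℂ)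
          * β (Real.log ‖((infU K w c₁ : ℂˣ) : ℂ)‖ + j * Real.log (w (α : K)),
              Real.log ‖((infU K w c₂ : ℂˣ) : ℂ)‖)

/-- **N.8 (product formula).**  `∏_w (w α)² = |N_{K/ℚ} α| = N(𝔭_{v₀})ⁿ` for a totally complex
field (`NumberField.InfinitePlace.prod_eq_abs_norm`, `Ideal.absNorm_span_singleton`). -/
def ProdFormC : Prop :=
  (∀ w : InfinitePlace K, w.IsComplex) →
  ∀ (𝔫 : Ideal (𝓞 K)) (v₀ : HeightOneSpectrum (𝓞 K)) (a₀ : 𝓞 K) (n : ℕ) (α : Kˣ),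
    Frame K 𝔫 v₀ a₀ n α →
    ((Ideal.absNorm v₀.asIdeal : ℝ) ^ (-(n : ℝ) / 2)) * ∏ w : InfinitePlace K, w (α : K) = 1

end Fermat.Agent.LT.T3.AS.N893

end
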