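import Mathlib

/-!
# Row LT, tower T3, leaf T3.11 (helper893): an abstract lemma of Bruhat type

OFF-MAIN.  Mathlib only.

`G` a second countable topological group with a left invariant measure `μ`, `(B, κ)` a measure
space, `p : B → G` measurable (in the application `B = ℤ × 𝔸_K`, `p (j, x) = n(x) γ₀ʲ`, a
parametrisation of the closed subgroup `P = N(𝔸_K) ⋊ γ₀^ℤ`).  If `Ψ` is left invariant under the
`p b`, if the orbital integrals `∫ φ((p b)⁻¹ y) dκ(b)` vanish, and if there is a weight `ρ ≥ 0`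
whose orbital integral `S(y) = ∫ ρ(p b · y) dκ(b)` is invariant, positive and finite on the support
of `φ`, then `∫ Ψ φ dμ = 0`.  (This is the well-definedness of the quotient integral on `P \ G`,
proved with the weight `ρ / S` instead of a Bruhat function; no quotient measure is used.)
-/

set_option autoImplicit false

open MeasureTheory
open scoped ENNReal

noncomputable section

namespace Fermat.Agent.LT.T3.H893

section Abstract

variable {G B : Type*} [Group G] [TopologicalSpace G] [IsTopologicalGroup G]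
  [MeasurableSpace G] [BorelSpace G] [SecondCountableTopology G]
  [MeasurableSpace B]

/-- The shear `(b, y) ↦ (b, p b * y)` as a measurable equivalence. -/
def shear893 (p : B → G) (hp : Measurable p) : B × G ≃ᵐ B × G where
  toFun z := (z.1, p z.1 * z.2)
  invFun z := (z.1, (p z.1)⁻¹ * z.2)
  left_inv z := by simp
  right_inv z := by simp
  measurable_toFun := by
    refine Measurable.prodMk measurable_fst ?_
    exact (hp.comp measurable_fst).mul measurable_snd
  measurable_invFun := by
    refine Measurable.prodMk measurable_fst ?_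
    exact ((hp.comp measurable_fst).inv).mul measurable_snd

theorem shear893_apply (p : B → G) (hp : Measurable p) (z : B × G) :
    shear893 p hp z = (z.1, p z.1 * z.2) := rfl

theorem measurePreserving_shear893 (μ : Measure G) [μ.IsMulLeftInvariant] [SFinite μ]
    (κ : Measure B) [SFinite κ] (p : B → G) (hp : Measurable p) :
    MeasurePreserving (shear893 p hp) (κ.prod μ) (κ.prod μ) := by
  have h := MeasurePreserving.skew_product (μa := κ) (μb := κ) (μc := μ) (μd := μ)
    (f := id) (MeasurePreserving.id κ) (g := fun b y => p b * y)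
    ((hp.comp measurable_fst).mul measurable_snd)
    (Filter.Eventually.of_forall fun b => map_mul_left_eq_self μ (p b))
  exact h

/-- **Bruhat-type lemma.** -/
theorem integral_eq_zero_of_orbital893 (μ : Measure G) [μ.IsMulLeftInvariant] [SFinite μ]
    (κ : Measure B) [SFinite κ] (p : B → G) (hp : Measurable p)
    (φ Ψ : G → ℂ) (hφ : Measurable φ) (hΨ : Measurable Ψ)
    (hint : Integrable (fun y => Ψ y * φ y) μ)
    (ρ : G → ℝ) (hρ : Measurable ρ) (hρ0 : ∀ y, 0 ≤ ρ y)
    (hΨinv : ∀ b y, Ψ (p b * y) = Ψ y)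
    (hSinv : ∀ b y, ∫⁻ b', ENNReal.ofReal (ρ (p b' * (p b * y))) ∂κ
        = ∫⁻ b', ENNReal.ofReal (ρ (p b' * y)) ∂κ)
    (hS0 : ∀ y, φ y ≠ 0 → ∫⁻ b, ENNReal.ofReal (ρ (p b * y)) ∂κ ≠ 0)
    (hStop : ∀ y, φ y ≠ 0 → ∫⁻ b, ENNReal.ofReal (ρ (p b * y)) ∂κ ≠ ∞)
    (horb : ∀ y, Integrable (fun b => φ ((p b)⁻¹ * y)) κ → ∫ b, φ ((p b)⁻¹ * y) ∂κ = 0) :
    ∫ y, Ψ y * φ y ∂μ = 0 := by
  classical
  -- the orbital integral of the weight
  set S : G → ℝ≥0∞ := fun y => ∫⁻ b, ENNReal.ofReal (ρ (p b * y)) ∂κ with hSdef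
  have hρpm : Measurable fun z : B × G => ρ (p z.1 * z.2) :=
    hρ.comp ((hp.comp measurable_fst).mul measurable_snd)
  have hSm : Measurable S := by
    have h1 : Measurable fun z : G × B => ENNReal.ofReal (ρ (p z.2 * z.1)) :=
      (hρ.comp ((hp.comp measurable_snd).mul measurable_fst)).ennreal_ofReal
    exact Measurable.lintegral_prod_right' h1
  set w : G → ℝ := fun y => ((S y)⁻¹).toReal with hwdef
  have hwm : Measurable w := (hSm.inv).ennreal_toReal
  have hwinv : ∀ b y, w (p b * y) = w y := by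
    intro b y
    simp only [hwdef, hSdef]
    rw [hSinv b y]
  -- the real orbital integral of the weight
  have hρint : ∀ y, φ y ≠ 0 → Integrable (fun b => ρ (p b * y)) κ := by
    intro y hy
    refine ⟨(hρ.comp (hp.mul_const y)).aestronglyMeasurable, ?_⟩
    rw [hasFiniteIntegral_iff_enorm]
    have : ∀ b, ‖ρ (p b * y)‖ₑ = ENNReal.ofReal (ρ (p b * y)) := fun b =>
      Real.enorm_of_nonneg (hρ0 _)
    simp only [this]
    exact lt_of_le_of_ne le_top (hStop y hy)
  have hρval : ∀ y, φ y ≠ 0 → w y * ∫ b, ρ (p b * y) ∂κ = 1 := by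
    intro y hy
    rw [integral_eq_lintegral_of_nonneg_ae (Filter.Eventually.of_forall fun b => hρ0 _)
      (hρ.comp (hp.mul_const y)).aestronglyMeasurable]
    have h0 : S y ≠ 0 := hS0 y hy
    have h1 : S y ≠ ∞ := hStop y hy
    change ((S y)⁻¹).toReal * (S y).toReal = 1
    rw [← ENNReal.toReal_mul, ENNReal.inv_mul_cancel h0 h1, ENNReal.toReal_one]
  -- the two kernels
  set H₁ : B × G → ℂ := fun z => Ψ z.2 * φ z.2 * (w z.2 : ℂ) * (ρ (p z.1 * z.2) : ℂ) with hH₁
  set H₂ : B × G → ℂ := fun z => Ψ z.2 * (w z.2 : ℂ) * (ρ z.2 : ℂ) * φ ((p z.1)⁻¹ * z.2) with hH₂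
  have hH₁m : Measurable H₁ := by
    refine ((((hΨ.comp measurable_snd).mul (hφ.comp measurable_snd)).mul
      (Complex.measurable_ofReal.comp (hwm.comp measurable_snd))).mul
      (Complex.measurable_ofReal.comp hρpm))
  have hcomp : ∀ z, H₂ (shear893 p hp z) = H₁ z := by
    intro z
    simp only [hH₁, hH₂, shear893_apply, inv_mul_cancel_left, hΨinv, hwinv]
    ring
  have key1 : ∀ y, ∫ b, H₁ (b, y) ∂κ = Ψ y * φ y := by
    intro y
    simp only [hH₁]
    rw [integral_const_mul, integral_complex_ofReal]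
    by_cases hy : φ y = 0
    · simp [hy]
    · have := hρval y hy
      rw [mul_assoc, ← Complex.ofReal_mul, this]
      simp
  have key1n : ∀ y, ∫ b, ‖H₁ (b, y)‖ ∂κ = ‖Ψ y * φ y‖ := by
    intro y
    simp only [hH₁]
    by_cases hy : φ y = 0
    · simp [hy]
    · have hw0 : 0 ≤ w y := ENNReal.toReal_nonneg
      have e1 : ∀ b, ‖Ψ y * φ y * (w y : ℂ) * (ρ (p b * y) : ℂ)‖
          = ‖Ψ y * φ y‖ * w y * ρ (p b * y) := by
        intro b
        rw [norm_mul, norm_mul, Complex.norm_real, Complex.norm_real,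
          Real.norm_of_nonneg hw0, Real.norm_of_nonneg (hρ0 _)]
      simp only [e1]
      rw [integral_const_mul, mul_assoc, hρval y hy, mul_one]
  have int1 : Integrable H₁ (κ.prod μ) := by
    rw [integrable_prod_iff' hH₁m.aestronglyMeasurable]
    refine ⟨Filter.Eventually.of_forall fun y => ?_, ?_⟩
    · by_cases hy : φ y = 0
      · simp [hH₁, hy]
      · simp only [hH₁]
        exact ((hρint y hy).ofReal (𝕜 := ℂ)).const_mul _
    · simp only [key1n]
      exact hint.norm
  have hT := measurePreserving_shear893 μ κ p hp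
  have int2 : Integrable H₂ (κ.prod μ) := by
    have h := (hT.integrable_comp_emb (shear893 p hp).measurableEmbedding (g := H₂)).1
    apply h
    have : H₂ ∘ (shear893 p hp) = H₁ := funext hcomp
    rw [this]
    exact int1
  have key2 : ∀ y, ∫ b, H₂ (b, y) ∂κ = 0 := by
    intro y
    simp only [hH₂]
    rw [integral_const_mul]
    by_cases hi : Integrable (fun b => φ ((p b)⁻¹ * y)) κ
    · rw [horb y hi, mul_zero]
    · rw [integral_undef hi, mul_zero]
  calc ∫ y, Ψ y * φ y ∂μ = ∫ y, ∫ b, H₁ (b, y) ∂κ ∂μ := by simp only [key1]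
    _ = ∫ z, H₁ z ∂(κ.prod μ) := (integral_prod_symm H₁ int1).symm
    _ = ∫ z, H₂ (shear893 p hp z) ∂(κ.prod μ) := by simp only [hcomp]
    _ = ∫ z, H₂ z ∂(κ.prod μ) := hT.integral_comp' H₂
    _ = ∫ y, ∫ b, H₂ (b, y) ∂κ ∂μ := integral_prod_symm H₂ int2
    _ = 0 := by simp only [key2, integral_zero]

end Abstract

end Fermat.Agent.LT.T3.H893

end
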