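import Mathlib
import Fermat.Agent.LT.T1.Spec
import Fermat.Agent.LT.T3.Spec

/-!
# Row LT, tower T3 (helper893): the product formula for Haar measures of `𝔸_K`

OFF-MAIN.  `x ↦ α x`, `α ∈ Kˣ`, preserves every Haar measure of `𝔸_K`
(`|α|_𝔸 = 1` in the form which the leaves T3.11, T3.12, T3.15 use).
Proof: the pushforward is a Haar measure, hence `c • ν`; the preimage of a fundamental domain of
`K` in `𝔸_K` is a fundamental domain; two fundamental domains have the same (finite, positive)
measure; so `c = 1`.  Hypotheses: the interface Props `T1.LocCompC`, `T1.AddFundDomC`.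
-/

set_option autoImplicit false
set_option linter.style.haveILetI false

open MeasureTheory NumberField
open scoped ENNReal
open Fermat.Agent.LT.H556.A0

noncomputable section

namespace Fermat.Agent.LT.T3.H893

variable (K : Type) [Field K] [NumberField K]

/-- A number field is countable. -/
theorem countable_numberField893 : Countable K := by
  have b := Module.finBasis ℚ K
  exact b.equivFun.toEquiv.countable_iff.mpr inferInstance

/-- **Product formula for Haar measures** (interface Prop): multiplication by a principal idele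
preserves every Haar measure of `𝔸_K`. -/
def HaarProdC : Prop :=
  letI : MeasurableSpace (Adl K) := borel (Adl K)
  ∀ ν : Measure (Adl K), ν.IsAddHaarMeasure → ∀ α : Kˣ,
    MeasurePreserving (fun x : Adl K => algebraMap K (Adl K) (α : K) * x) ν ν

/-- Multiplication by `α ∈ Kˣ` as an additive equivalence of `𝔸_K`. -/
def mulRat893 (α : Kˣ) : Adl K ≃+ Adl K where
  toFun x := algebraMap K (Adl K) (α : K) * x
  invFun x := algebraMap K (Adl K) ((α⁻¹ : Kˣ) : K) * x
  left_inv x := by
    show algebraMap K (Adl K) ((α⁻¹ : Kˣ) : K) * (algebraMap K (Adl K) (α : K) * x) = x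
    rw [← mul_assoc, ← map_mul, ← Units.val_mul, inv_mul_cancel, Units.val_one, map_one, one_mul]
  right_inv x := by
    show algebraMap K (Adl K) (α : K) * (algebraMap K (Adl K) ((α⁻¹ : Kˣ) : K) * x) = x
    rw [← mul_assoc, ← map_mul, ← Units.val_mul, mul_inv_cancel, Units.val_one, map_one, one_mul]
  map_add' x y := mul_add _ _ _

theorem mulRat893_apply (α : Kˣ) (x : Adl K) :
    mulRat893 K α x = algebraMap K (Adl K) (α : K) * x := rfl

theorem continuous_mulRat893 (α : Kˣ) : Continuous (mulRat893 K α) :=
  continuous_const.mul continuous_id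

theorem continuous_mulRat893_symm (α : Kˣ) : Continuous (mulRat893 K α).symm :=
  continuous_const.mul continuous_id

/-- The product formula from the interface of tower T1. -/
theorem haarProd_of893 (hLC : T1.LocCompC K) (hFD : T1.AddFundDomC K) : HaarProdC K := by
  intro ν hν α
  letI : MeasurableSpace (Adl K) := borel (Adl K)
  haveI : BorelSpace (Adl K) := ⟨rfl⟩
  haveI : LocallyCompactSpace (Adl K) := hLC.1.1
  haveI : T2Space (Adl K) := hLC.1.2.1
  haveI : SecondCountableTopology (Adl K) := hLC.1.2.2
  haveI := hν
  haveI : Countable K := countable_numberField893 K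
  set e := mulRat893 K α with he
  have hec : Continuous e := continuous_mulRat893 K α
  have hem : Measurable e := hec.measurable
  haveI hν' : (Measure.map e ν).IsAddHaarMeasure :=
    AddEquiv.isAddHaarMeasure_map ν e hec (continuous_mulRat893_symm K α)
  -- uniqueness of Haar measure
  have hc := Measure.isAddLeftInvariant_eq_smul (Measure.map e ν) ν
  set c : NNReal := (Measure.map e ν).addHaarScalarFactor ν with hcdef
  -- the fundamental domain
  obtain ⟨D, hDm, hD, -, hDpos, hDfin⟩ := hFD ν hν
  haveI : Countable (T1.princ K) := by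
    have : Function.Surjective (fun ξ : K => (⟨algebraMap K (Adl K) ξ, ⟨ξ, rfl⟩⟩ : T1.princ K)) := by
      rintro ⟨x, ξ, rfl⟩
      exact ⟨ξ, rfl⟩
    exact this.countable
  -- quasi measure preserving
  have hq : Measure.QuasiMeasurePreserving e ν ν := by
    refine ⟨hem, ?_⟩
    rw [hc]
    exact Measure.smul_absolutelyContinuous
  -- the bijection of `K` on the translations
  let eG : T1.princ K → T1.princ K := fun g =>
    ⟨(mulRat893 K α).symm g.1, by
      obtain ⟨x, ξ, rfl⟩ := g
      refine ⟨((α⁻¹ : Kˣ) : K) * ξ, ?_⟩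
      change algebraMap K (Adl K) (((α⁻¹ : Kˣ) : K) * ξ) = algebraMap K (Adl K) ((α⁻¹ : Kˣ) : K) * _
      rw [map_mul]
      rfl⟩
  have heGb : Function.Bijective eG := by
    constructor
    · intro a b hab
      have := congrArg Subtype.val hab
      simp only [eG] at this
      exact Subtype.ext ((mulRat893 K α).symm.injective this)
    · rintro ⟨x, ξ, rfl⟩
      refine ⟨⟨mulRat893 K α (algebraMap K (Adl K) ξ), ⟨(α : K) * ξ, ?_⟩⟩, ?_⟩
      · change algebraMap K (Adl K) ((α : K) * ξ) = algebraMap K (Adl K) (α : K) * _
        rw [map_mul]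
      · apply Subtype.ext
        simp [eG]
  have hD' : IsAddFundamentalDomain (T1.princ K) (e ⁻¹' D) ν := by
    refine hD.preimage_of_equiv hq heGb ?_
    intro g x
    change e ((eG g : Adl K) + x) = (g : Adl K) + e x
    rw [map_add]
    congr 1
    simp [eG, he]
  have hmeas : ν (e ⁻¹' D) = ν D := hD'.measure_eq hD
  have hmap : Measure.map e ν D = ν D := by
    rw [Measure.map_apply hem hDm, hmeas]
  have hc1 : (c : ℝ≥0∞) = 1 := by
    have h1 : (Measure.map e ν) D = (c : ℝ≥0∞) * ν D := by
      conv_lhs => rw [hc]
      rfl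
    rw [hmap] at h1
    have h2 : (c : ℝ≥0∞) * ν D = 1 * ν D := by rw [one_mul]; exact h1.symm
    exact (ENNReal.mul_left_inj hDpos.ne' hDfin.ne).mp h2
  refine ⟨hem, ?_⟩
  change Measure.map e ν = ν
  rw [hc]
  change (c : ℝ≥0∞) • ν = ν
  rw [hc1, one_smul]

end Fermat.Agent.LT.T3.H893

end
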