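import Mathlib
import Fermat.Agent.LT.T1.Spec
import Fermat.Agent.LT.T3.Spec

/-!
# Row LT, tower T3, leaf T3.11 (helper893): the subgroup `N(𝔸_K) ⋊ γ₀^ℤ` of `GL₂(𝔸_K)`

OFF-MAIN.  Algebra and topology of `T3.unip` (`n(x)`) and `T3.torK` (`diag(α, 1)`).
-/

set_option autoImplicit false
set_option linter.style.haveILetI false

open MeasureTheory NumberField
open scoped ENNReal
open Fermat.Agent.LT.H556.A0

noncomputable section

namespace Fermat.Agent.LT.T3.H893

variable (K : Type) [Field K] [NumberField K]

/-! ## Algebra -/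

theorem unip_val893 (x : Adl K) :
    ((unip K x : G K) : Matrix (Fin 2) (Fin 2) (Adl K)) = !![1, x; 0, 1] := rfl

theorem torK_val893 (α : Kˣ) :
    ((torK K α : G K) : Matrix (Fin 2) (Fin 2) (Adl K)) = !![emb K (α : K), 0; 0, 1] := rfl

theorem unip_zero893 : unip K 0 = 1 := by
  apply Units.ext
  rw [unip_val893]
  ext i j
  fin_cases i <;> fin_cases j <;> simp

theorem unip_add893 (x y : Adl K) : unip K (x + y) = unip K x * unip K y := by
  apply Units.ext
  rw [Units.val_mul, unip_val893, unip_val893, unip_val893]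
  ext i j
  fin_cases i <;> fin_cases j <;> simp [Matrix.mul_apply, Fin.sum_univ_two, add_comm]

theorem unip_inv893 (x : Adl K) : (unip K x)⁻¹ = unip K (-x) := by
  rw [inv_eq_iff_mul_eq_one, ← unip_add893, add_neg_cancel, unip_zero893]

theorem torK_one893 : torK K 1 = 1 := by
  apply Units.ext
  rw [torK_val893]
  ext i j
  fin_cases i <;> fin_cases j <;> simp

theorem torK_mul893 (α β : Kˣ) : torK K (α * β) = torK K α * torK K β := by
  apply Units.ext
  rw [Units.val_mul, torK_val893, torK_val893, torK_val893]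
  ext i j
  fin_cases i <;> fin_cases j <;> simp [Matrix.mul_apply, Fin.sum_univ_two]

/-- `α ↦ diag(α, 1)` as a monoid homomorphism. -/
def torKHom893 : Kˣ →* G K where
  toFun := torK K
  map_one' := torK_one893 K
  map_mul' := torK_mul893 K

theorem torK_zpow893 (α : Kˣ) (j : ℤ) : torK K α ^ j = torK K (α ^ j) :=
  (map_zpow (torKHom893 K) α j).symm

theorem torK_inv893 (α : Kˣ) : (torK K α)⁻¹ = torK K α⁻¹ :=
  (map_inv (torKHom893 K) α).symm

/-- `diag(β,1) n(x) = n(β x) diag(β,1)`. -/
theorem torK_mul_unip893 (β : Kˣ) (x : Adl K) :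
    torK K β * unip K x = unip K (emb K (β : K) * x) * torK K β := by
  apply Units.ext
  rw [Units.val_mul, Units.val_mul, unip_val893, unip_val893, torK_val893]
  ext i j
  fin_cases i <;> fin_cases j <;> simp [Matrix.mul_apply, Fin.sum_univ_two]

/-- `(n(x) diag(β,1))⁻¹ = n(-β⁻¹ x) diag(β⁻¹,1)`. -/
theorem unip_mul_torK_inv893 (β : Kˣ) (x : Adl K) :
    (unip K x * torK K β)⁻¹ = unip K (-(emb K ((β⁻¹ : Kˣ) : K) * x)) * torK K β⁻¹ := by
  rw [mul_inv_rev, unip_inv893, torK_inv893, torK_mul_unip893, mul_neg]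

/-- `n(x) diag(β,1) n(x₀) diag(β₀,1) = n(x + β x₀) diag(β β₀, 1)`. -/
theorem unip_torK_mul893 (β β₀ : Kˣ) (x x₀ : Adl K) :
    unip K x * torK K β * (unip K x₀ * torK K β₀)
      = unip K (x + emb K (β : K) * x₀) * torK K (β * β₀) := by
  rw [mul_assoc, ← mul_assoc (torK K β), torK_mul_unip893, unip_add893, torK_mul893]
  simp only [mul_assoc]

theorem entry00_unip_mul_torK893 (β : Kˣ) (x : Adl K) :
    ((unip K x * torK K β : G K) : Matrix (Fin 2) (Fin 2) (Adl K)) 0 0 = emb K (β : K) := by
  rw [Units.val_mul, unip_val893, torK_val893]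
  simp [Matrix.mul_apply, Fin.sum_univ_two]

theorem entry01_unip893 (x : Adl K) :
    ((unip K x : G K) : Matrix (Fin 2) (Fin 2) (Adl K)) 0 1 = x := by
  rw [unip_val893]
  simp

/-! ## Topology -/

theorem continuous_entry893 (i j : Fin 2) :
    Continuous fun g : G K => (g : Matrix (Fin 2) (Fin 2) (Adl K)) i j :=
  (Units.continuous_val).matrix_elem i j

theorem continuous_unip893 : Continuous (unip K) := by
  rw [Units.continuous_iff]
  constructor
  · refine continuous_matrix fun i j => ?_
    change Continuous fun x : Adl K => (!![1, x; 0, 1] : Matrix (Fin 2) (Fin 2) (Adl K)) i j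
    fin_cases i <;> fin_cases j <;> simp <;> fun_prop
  · have : (fun x : Adl K => (((unip K x)⁻¹ : G K) : Matrix (Fin 2) (Fin 2) (Adl K)))
        = fun x => !![1, -x; 0, 1] := by
      funext x
      rw [unip_inv893, unip_val893]
    rw [this]
    refine continuous_matrix fun i j => ?_
    fin_cases i <;> fin_cases j <;> simp <;> fun_prop

/-- The preimage of a compact set under `x ↦ a n(x) b` lies in a compact set. -/
theorem exists_compact_unip893 (a b : G K) (C : Set (G K)) (hC : IsCompact C) :
    ∃ C' : Set (Adl K), IsCompact C' ∧ ∀ x : Adl K, a * unip K x * b ∈ C → x ∈ C' := by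
  refine ⟨(fun g : G K => (g : Matrix (Fin 2) (Fin 2) (Adl K)) 0 1) ''
      ((fun g : G K => a⁻¹ * g * b⁻¹) '' C), ?_, ?_⟩
  · refine (hC.image ?_).image (continuous_entry893 K 0 1)
    exact (continuous_const.mul continuous_id).mul continuous_const
  · intro x hx
    refine ⟨unip K x, ⟨a * unip K x * b, hx, ?_⟩, entry01_unip893 K x⟩
    change a⁻¹ * (a * unip K x * b) * b⁻¹ = unip K x
    rw [mul_assoc a, inv_mul_cancel_left, mul_inv_cancel_right]

/-- Composition of a compactly supported function with `x ↦ a n(x) b`. -/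
theorem hasCompactSupport_comp_unip893 [T2Space (Adl K)] {E : Type*} [Zero E] (F : G K → E)
    (hF : HasCompactSupport F) (a b : G K) :
    HasCompactSupport fun x : Adl K => F (a * unip K x * b) := by
  obtain ⟨C', hC', hx⟩ := exists_compact_unip893 K a b (tsupport F) hF
  refine HasCompactSupport.intro hC' ?_
  intro x hxC
  by_contra hne
  exact hxC (hx x (subset_tsupport F hne))

theorem continuous_comp_unip893 {E : Type*} [TopologicalSpace E] (F : G K → E)
    (hF : Continuous F) (a b : G K) :
    Continuous fun x : Adl K => F (a * unip K x * b) :=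
  hF.comp ((continuous_const.mul (continuous_unip893 K)).mul continuous_const)

/-- Finiteness: only finitely many `β ∈ Kˣ` have `n(x) diag(β,1) y` in a given compact set. -/
theorem finite_torK_of893 (hdisc : DiscreteTopology (T1.princ K))
    (hclosed : IsClosed (T1.princ K : Set (Adl K))) (C : Set (G K)) (hC : IsCompact C)
    (y : G K) :
    {β : Kˣ | ∃ x : Adl K, unip K x * torK K β * y ∈ C}.Finite := by
  -- the compact set of possible `(0,0)` entries
  set C' : Set (Adl K) := (fun g : G K => (g : Matrix (Fin 2) (Fin 2) (Adl K)) 0 0) ''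
      ((fun g : G K => g * y⁻¹) '' C) with hC'
  have hC'c : IsCompact C' := by
    refine (hC.image ?_).image (continuous_entry893 K 0 0)
    exact continuous_id.mul continuous_const
  have hfin : (C' ∩ (T1.princ K : Set (Adl K))).Finite := by
    have hcomp : IsCompact (C' ∩ (T1.princ K : Set (Adl K))) := hC'c.inter_right hclosed
    refine hcomp.finite ?_
    have : IsDiscrete ((T1.princ K : Set (Adl K))) := ⟨hdisc⟩
    exact this.mono Set.inter_subset_right
  have hinj : Function.Injective fun β : Kˣ => emb K (β : K) := by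
    intro β β' h
    exact Units.ext (NumberField.AdeleRing.algebraMap_injective (𝓞 K) K h)
  refine Set.Finite.of_finite_image (hfin.subset ?_) hinj.injOn
  rintro _ ⟨β, ⟨x, hx⟩, rfl⟩
  refine ⟨⟨unip K x * torK K β, ⟨unip K x * torK K β * y, hx, ?_⟩,
    entry00_unip_mul_torK893 K β x⟩, ⟨(β : K), rfl⟩⟩
  change unip K x * torK K β * y * y⁻¹ = unip K x * torK K β
  rw [mul_inv_cancel_right]

/-- Finiteness, from the interface Prop of tower T1. -/
theorem finite_torK893 (hAL : T1.AdeleLatticeC K) (C : Set (G K)) (hC : IsCompact C) (y : G K) :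
    {β : Kˣ | ∃ x : Adl K, unip K x * torK K β * y ∈ C}.Finite :=
  finite_torK_of893 K hAL.1 hAL.2.1 C hC y

end Fermat.Agent.LT.T3.H893

end
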