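import Mathlib
import Fermat.Agent.LT.T3.H893.Unip
import Fermat.Agent.LT.T3.H893.ProdFormula

/-!
# Row LT, tower T3, leaf T3.11 (helper893): auxiliary lemmas for `EKKillC`

OFF-MAIN.  Orbital integrals over `N(𝔸_K)`: finiteness, positivity; invariance of a function under
`γ^ℤ`; the EK sum of an element `α` of finite order.
-/

set_option autoImplicit false
set_option linter.style.haveILetI false

open MeasureTheory NumberField
open scoped ENNReal
open Fermat.Agent.LT.H556.A0

noncomputable section

namespace Fermat.Agent.LT.T3.H893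

variable (K : Type) [Field K] [NumberField K]

theorem continuous_unip_mul893 {E : Type*} [TopologicalSpace E] (F : G K → E)
    (hF : Continuous F) (b : G K) : Continuous fun x : Adl K => F (unip K x * b) :=
  hF.comp ((continuous_unip893 K).mul continuous_const)

theorem hasCompactSupport_unip_mul893 [T2Space (Adl K)] {E : Type*} [Zero E] (F : G K → E)
    (hF : HasCompactSupport F) (b : G K) :
    HasCompactSupport fun x : Adl K => F (unip K x * b) := by
  have h := hasCompactSupport_comp_unip893 K F hF 1 b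
  simpa only [one_mul] using h

/-- The orbital integral of a compactly supported continuous weight over `N(𝔸_K)` is finite. -/
theorem lintegral_unip_lt_top893 [MeasurableSpace (Adl K)] [BorelSpace (Adl K)] [T2Space (Adl K)]
    (ν : Measure (Adl K)) [IsFiniteMeasureOnCompacts ν] (ρ : G K → ℝ) (hρ : Continuous ρ)
    (hρc : HasCompactSupport ρ) (b : G K) :
    ∫⁻ x, ENNReal.ofReal (ρ (unip K x * b)) ∂ν < ∞ :=
  ((continuous_unip_mul893 K ρ hρ b).integrable_of_hasCompactSupport
    (hasCompactSupport_unip_mul893 K ρ hρc b)).lintegral_lt_top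

/-- The orbital integral over `N(𝔸_K)` of a continuous weight is positive where the weight is. -/
theorem lintegral_unip_pos893 [MeasurableSpace (Adl K)] [BorelSpace (Adl K)]
    (ν : Measure (Adl K)) [ν.IsOpenPosMeasure] (ρ : G K → ℝ) (hρ : Continuous ρ)
    (b : G K) (hb : 0 < ρ b) :
    0 < ∫⁻ x, ENNReal.ofReal (ρ (unip K x * b)) ∂ν := by
  have h2 : Continuous fun x : Adl K => ρ (unip K x * b) := continuous_unip_mul893 K ρ hρ b
  rw [lintegral_pos_iff_support h2.measurable.ennreal_ofReal]
  have hopen : IsOpen {x : Adl K | 0 < ρ (unip K x * b)} := isOpen_lt continuous_const h2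
  have hne : ({x : Adl K | 0 < ρ (unip K x * b)}).Nonempty :=
    ⟨0, by simpa [unip_zero893] using hb⟩
  refine lt_of_lt_of_le (hopen.measure_pos ν hne) (measure_mono ?_)
  intro x hx
  simp only [Function.mem_support, ne_eq, ENNReal.ofReal_eq_zero, not_le]
  exact hx

/-- Invariance under `γ` gives invariance under `γ ^ j`, `j ∈ ℤ`. -/
theorem inv_zpow893 {H E : Type*} [Group H] (Ψ : H → E) (γ : H) (h : ∀ g, Ψ (γ * g) = Ψ g)
    (j : ℤ) : ∀ g : H, Ψ (γ ^ j * g) = Ψ g := by
  induction j using Int.induction_on with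
  | zero => intro g; simp
  | succ i ih =>
    intro g
    rw [zpow_add_one, mul_assoc, ih, h]
  | pred i ih =>
    intro g
    rw [zpow_sub_one, mul_assoc, ih]
    have := h (γ⁻¹ * g)
    rw [mul_inv_cancel_left] at this
    exact this.symm

/-- If `α` has finite order, every term of an EK sum vanishes. -/
theorem ek_term_zero_of_finOrder893 [MeasurableSpace (Adl K)] (ν : Measure (Adl K))
    (α : Kˣ) (hfo : IsOfFinOrder α) (f : G K → ℂ) (hEK : IsEK K ν f α) (g g' : G K) :
    ∫ x, f (g⁻¹ * unip K x * g') ∂ν = 0 := by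
  obtain ⟨n, hn, hαn⟩ := isOfFinOrder_iff_pow_eq_one.1 hfo
  set T : ℤ → ℂ := fun j => ∫ x, f (g⁻¹ * unip K x * torK K α ^ j * g') ∂ν with hT
  have hsum : HasSum T 0 := hEK g g'
  have hper : ∀ k : ℤ, T ((n : ℤ) * k) = T 0 := by
    intro k
    simp only [hT]
    have h1 : torK K α ^ n = 1 := by
      have := torK_zpow893 K α (n : ℤ)
      rw [zpow_natCast, zpow_natCast] at this
      rw [this, hαn, torK_one893]
    have : torK K α ^ ((n : ℤ) * k) = 1 := by
      rw [zpow_mul, zpow_natCast, h1, one_zpow]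
    rw [this, zpow_zero]
  have hT0 : T 0 = ∫ x, f (g⁻¹ * unip K x * g') ∂ν := by
    simp only [hT, zpow_zero, mul_one]
  rw [← hT0]
  by_contra hne
  have hpos : 0 < ‖T 0‖ := norm_pos_iff.mpr hne
  have htend := hsum.summable.tendsto_cofinite_zero
  have hev : ∀ᶠ j in Filter.cofinite, T j ∈ Metric.ball (0 : ℂ) ‖T 0‖ :=
    htend (Metric.ball_mem_nhds 0 hpos)
  have hfin : {j : ℤ | ¬ T j ∈ Metric.ball (0 : ℂ) ‖T 0‖}.Finite :=
    Filter.eventually_cofinite.1 hev
  have hsub : Set.range (fun k : ℤ => (n : ℤ) * k)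
      ⊆ {j : ℤ | ¬ T j ∈ Metric.ball (0 : ℂ) ‖T 0‖} := by
    rintro _ ⟨k, rfl⟩
    simp only [Set.mem_ofPred_eq, hper k, Metric.mem_ball, dist_zero_right, lt_self_iff_false,
      not_false_eq_true]
  have hinf : (Set.range (fun k : ℤ => (n : ℤ) * k)).Infinite := by
    apply Set.infinite_range_of_injective
    intro a b hab
    have hn0 : (n : ℤ) ≠ 0 := by exact_mod_cast hn.ne'
    exact mul_left_cancel₀ hn0 hab
  exact hinf (hfin.subset hsub)

end Fermat.Agent.LT.T3.H893

end
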