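import Mathlib
import Fermat.Agent.LT.T3.H893.Bruhat
import Fermat.Agent.LT.T3.H893.EKKillAux

/-!
# Row LT, tower T3, leaf T3.11 (helper893): `EKKillC`, the common frame and the case of finite order

OFF-MAIN.
-/

set_option autoImplicit false
set_option linter.style.haveILetI false

open MeasureTheory NumberField
open scoped ENNReal
open Fermat.Agent.LT.H556.A0

noncomputable section

namespace Fermat.Agent.LT.T3.H893

variable (K : Type) [Field K] [NumberField K]

/-- The frame of the proof: `R(f)Ψ(g) = ∫ Ψ(y) f(g⁻¹ y) dy`. -/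
theorem rop_eq893 [MeasurableSpace (G K)] [BorelSpace (G K)] [SecondCountableTopology (G K)]
    (μ : Measure (G K)) [μ.IsMulLeftInvariant] (f Ψ : G K → ℂ) (g : G K) :
    Rop K μ f Ψ g = ∫ y, Ψ y * f (g⁻¹ * y) ∂μ := by
  have h := integral_mul_left_eq_self (μ := μ) (fun y => Ψ y * f (g⁻¹ * y)) g
  simp only [inv_mul_cancel_left] at h
  change ∫ h, Ψ (g * h) * f h ∂μ = ∫ y, Ψ y * f (g⁻¹ * y) ∂μ
  exact h

/-- **EK-kill, case of finite order** (only the invariance under `N(𝔸_K)` is used). -/
theorem ekKill_finOrder893 [MeasurableSpace (Adl K)] [BorelSpace (Adl K)]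
    [MeasurableSpace (G K)] [BorelSpace (G K)]
    [LocallyCompactSpace (Adl K)] [T2Space (Adl K)] [SecondCountableTopology (Adl K)]
    [LocallyCompactSpace (G K)] [T2Space (G K)] [SecondCountableTopology (G K)]
    (μ : Measure (G K)) [μ.IsHaarMeasure] (ν : Measure (Adl K)) [ν.IsAddHaarMeasure]
    (f : G K → ℂ) (hf : Continuous f) (hfc : HasCompactSupport f)
    (hvan : ∀ g g' : G K, ∫ x, f (g⁻¹ * unip K x * g') ∂ν = 0)
    (Ψ : G K → ℂ) (hΨ : Continuous Ψ) (hΨN : ∀ (x : Adl K) (g : G K), Ψ (unip K x * g) = Ψ g)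
    (g : G K) : Rop K μ f Ψ g = 0 := by
  rw [rop_eq893]
  set φ : G K → ℂ := fun y => f (g⁻¹ * y) with hφ
  have hφc : Continuous φ := hf.comp (continuous_const.mul continuous_id)
  have hφs : HasCompactSupport φ := hfc.comp_homeomorph (Homeomorph.mulLeft g⁻¹)
  -- the weight
  obtain ⟨ρ, hρ1, -, hρc, hρ01⟩ := exists_continuous_one_zero_of_isCompact
    (s := tsupport φ) (t := (∅ : Set (G K))) hφs isClosed_empty (Set.disjoint_empty _)
  have hρpos : ∀ y, φ y ≠ 0 → 0 < ρ y := by
    intro y hy
    have := hρ1 (subset_tsupport φ hy)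
    simp only [Pi.one_apply] at this
    rw [this]
    exact one_pos
  refine integral_eq_zero_of_orbital893 μ ν (unip K) (continuous_unip893 K).measurable φ Ψ
    hφc.measurable hΨ.measurable ?_ ρ ρ.continuous.measurable (fun y => (hρ01 y).1)
    (fun x y => hΨN x y) ?_ ?_ ?_ ?_
  · -- integrability
    refine (hΨ.mul hφc).integrable_of_hasCompactSupport ?_
    exact hφs.mul_left
  · -- invariance of the orbital integral of the weight
    intro x y
    have h := lintegral_add_right_eq_self (μ := ν)
      (fun x' => ENNReal.ofReal (ρ (unip K x' * y))) x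
    rw [← h]
    congr 1
    funext x'
    rw [unip_add893, mul_assoc]
  · intro y hy
    exact (lintegral_unip_pos893 K ν ρ ρ.continuous y (hρpos y hy)).ne'
  · intro y _
    exact (lintegral_unip_lt_top893 K ν ρ ρ.continuous hρc y).ne
  · intro y _
    simp only [hφ]
    have h := integral_neg_eq_self (fun x => f (g⁻¹ * (unip K x * y))) ν
    simp only [unip_inv893]
    rw [h]
    have := hvan g y
    simpa only [mul_assoc] using this

end Fermat.Agent.LT.T3.H893

end
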