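import Mathlib
import Fermat.Agent.LT.T3.H893.EKKillA

/-!
# Row LT, tower T3, leaf T3.11 (helper893): `EKKillC`, the case of infinite order

OFF-MAIN.  `B = ℤ × 𝔸_K` with the measure `count × ν`, `p (j, x) = n(x) diag(α^j, 1)`.
-/

set_option autoImplicit false
set_option linter.style.haveILetI false

open MeasureTheory NumberField
open scoped ENNReal
open Fermat.Agent.LT.H556.A0

noncomputable section

namespace Fermat.Agent.LT.T3.H893

variable (K : Type) [Field K] [NumberField K]

/-- The parametrisation of `N(𝔸_K) ⋊ γ₀^ℤ`. -/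
def pB893 (α : Kˣ) (b : ℤ × Adl K) : G K := unip K b.2 * torK K (α ^ b.1)

theorem pB893_apply (α : Kˣ) (j : ℤ) (x : Adl K) :
    pB893 K α (j, x) = unip K x * torK K (α ^ j) := rfl

theorem continuous_pB893 (α : Kˣ) (j : ℤ) : Continuous fun x : Adl K => pB893 K α (j, x) := by
  change Continuous fun x : Adl K => unip K x * torK K (α ^ j)
  exact (continuous_unip893 K).mul continuous_const

theorem measurable_pB893 [MeasurableSpace (Adl K)] [BorelSpace (Adl K)]
    [MeasurableSpace (G K)] [BorelSpace (G K)] (α : Kˣ) : Measurable (pB893 K α) :=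
  measurable_from_prod_countable_right fun j => (continuous_pB893 K α j).measurable

/-- The group law in the coordinates `(j, x)`. -/
theorem pB893_mul (α : Kˣ) (j' j : ℤ) (x' x : Adl K) :
    pB893 K α (j', x') * pB893 K α (j, x)
      = pB893 K α (j' + j, x' + emb K ((α ^ j' : Kˣ) : K) * x) := by
  rw [pB893_apply, pB893_apply, pB893_apply, unip_torK_mul893, zpow_add]

/-- The inverse in the coordinates `(j, x)`. -/
theorem pB893_inv (α : Kˣ) (j : ℤ) (x : Adl K) :
    (pB893 K α (j, x))⁻¹
      = unip K (-(emb K ((α ^ (-j) : Kˣ) : K) * x)) * torK K α ^ (-j) := by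
  rw [pB893_apply, unip_mul_torK_inv893, torK_zpow893, zpow_neg]

/-- Integrals of nonnegative functions over `count × ν`. -/
theorem lintegral_count_prod893 [MeasurableSpace (Adl K)] (ν : Measure (Adl K)) [SFinite ν]
    (F : ℤ × Adl K → ℝ≥0∞) (hF : Measurable F) :
    ∫⁻ b, F b ∂((Measure.count : Measure ℤ).prod ν) = ∑' j : ℤ, ∫⁻ x, F (j, x) ∂ν := by
  rw [lintegral_prod _ hF.aemeasurable, lintegral_count]

/-- Multiplication by a principal idele as a measurable equivalence. -/
def mulRatEquiv893 [MeasurableSpace (Adl K)] [BorelSpace (Adl K)] (β : Kˣ) :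
    Adl K ≃ᵐ Adl K where
  toEquiv := (mulRat893 K β).toEquiv
  measurable_toFun := (continuous_mulRat893 K β).measurable
  measurable_invFun := (continuous_mulRat893_symm K β).measurable

theorem mulRatEquiv893_apply [MeasurableSpace (Adl K)] [BorelSpace (Adl K)] (β : Kˣ)
    (x : Adl K) : mulRatEquiv893 K β x = emb K (β : K) * x := rfl

/-- **EK-kill, case of infinite order.** -/
theorem ekKill_infOrder893 [MeasurableSpace (Adl K)] [BorelSpace (Adl K)]
    [MeasurableSpace (G K)] [BorelSpace (G K)]
    [LocallyCompactSpace (Adl K)] [T2Space (Adl K)] [SecondCountableTopology (Adl K)]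
    [LocallyCompactSpace (G K)] [T2Space (G K)] [SecondCountableTopology (G K)]
    (hdisc : DiscreteTopology (T1.princ K)) (hclosed : IsClosed (T1.princ K : Set (Adl K)))
    (μ : Measure (G K)) [μ.IsHaarMeasure] (ν : Measure (Adl K)) [ν.IsAddHaarMeasure]
    (hPF : ∀ β : Kˣ, MeasurePreserving (fun x : Adl K => emb K (β : K) * x) ν ν)
    (α : Kˣ) (hα : ¬ IsOfFinOrder α)
    (f : G K → ℂ) (hf : Continuous f) (hfc : HasCompactSupport f) (hEK : IsEK K ν f α)
    (Ψ : G K → ℂ) (hΨ : Continuous Ψ) (hΨN : ∀ (x : Adl K) (g : G K), Ψ (unip K x * g) = Ψ g)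
    (hΨT : ∀ g : G K, Ψ (torK K α * g) = Ψ g)
    (g : G K) : Rop K μ f Ψ g = 0 := by
  rw [rop_eq893]
  set φ : G K → ℂ := fun y => f (g⁻¹ * y) with hφ
  have hφc : Continuous φ := hf.comp (continuous_const.mul continuous_id)
  have hφs : HasCompactSupport φ := hfc.comp_homeomorph (Homeomorph.mulLeft g⁻¹)
  -- the weight
  obtain ⟨ρ, hρ1, -, hρc, hρ01⟩ := exists_continuous_one_zero_of_isCompact
    (s := tsupport φ) (t := (∅ : Set (G K))) hφs isClosed_empty (Set.disjoint_empty _)
  have hρpos : ∀ y, φ y ≠ 0 → 0 < ρ y := by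
    intro y hy
    have := hρ1 (subset_tsupport φ hy)
    simp only [Pi.one_apply] at this
    rw [this]
    exact one_pos
  have hinj : Function.Injective fun j : ℤ => α ^ j :=
    injective_zpow_iff_not_isOfFinOrder.2 hα
  have hpm : Measurable (pB893 K α) := measurable_pB893 K α
  -- measurability of the weight along the orbit
  have hFm : ∀ y : G K, Measurable fun b : ℤ × Adl K => ENNReal.ofReal (ρ (pB893 K α b * y)) :=
    fun y => (ρ.continuous.measurable.comp (hpm.mul_const y)).ennreal_ofReal
  refine integral_eq_zero_of_orbital893 μ ((Measure.count : Measure ℤ).prod ν) (pB893 K α) hpm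
    φ Ψ hφc.measurable hΨ.measurable ?_ ρ ρ.continuous.measurable (fun y => (hρ01 y).1)
    ?_ ?_ ?_ ?_ ?_
  · -- integrability
    refine (hΨ.mul hφc).integrable_of_hasCompactSupport ?_
    exact hφs.mul_left
  · -- invariance of `Ψ`
    rintro ⟨j, x⟩ y
    rw [pB893_apply, mul_assoc, hΨN, ← torK_zpow893]
    exact inv_zpow893 Ψ (torK K α) hΨT j y
  · -- invariance of the orbital integral of the weight
    rintro ⟨j, x⟩ y
    set σ : ℤ × Adl K → ℤ × Adl K :=
      fun b' => (b'.1 + j, b'.2 + emb K ((α ^ b'.1 : Kˣ) : K) * x) with hσ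
    have hσmp : MeasurePreserving σ ((Measure.count : Measure ℤ).prod ν)
        ((Measure.count : Measure ℤ).prod ν) := by
      refine MeasurePreserving.skew_product (f := fun j' : ℤ => j' + j)
        (measurePreserving_add_right (Measure.count : Measure ℤ) j)
        (g := fun (j' : ℤ) (x' : Adl K) => x' + emb K ((α ^ j' : Kˣ) : K) * x) ?_ ?_
      · refine measurable_from_prod_countable_right fun j' => ?_
        change Measurable fun x' : Adl K => x' + emb K ((α ^ j' : Kˣ) : K) * x
        exact (Continuous.add (continuous_id (X := Adl K)) continuous_const).measurable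
      · exact Filter.Eventually.of_forall fun j' => map_add_right_eq_self ν _
    have h := hσmp.lintegral_comp (hFm y)
    rw [← h]
    congr 1
    funext b'
    obtain ⟨j', x'⟩ := b'
    rw [← mul_assoc, pB893_mul]
  · -- positivity
    intro y hy
    rw [lintegral_count_prod893 K ν _ (hFm y)]
    have h0 := lintegral_unip_pos893 K ν ρ ρ.continuous y (hρpos y hy)
    have h1 : ∫⁻ x, ENNReal.ofReal (ρ (unip K x * y)) ∂ν
        = ∫⁻ x, ENNReal.ofReal (ρ (pB893 K α (0, x) * y)) ∂ν := by
      simp only [pB893_apply, zpow_zero, torK_one893, mul_one]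
    rw [h1] at h0
    exact (lt_of_lt_of_le h0
      (ENNReal.le_tsum (f := fun j : ℤ => ∫⁻ x, ENNReal.ofReal (ρ (pB893 K α (j, x) * y)) ∂ν)
        0)).ne'
  · -- finiteness
    intro y _
    rw [lintegral_count_prod893 K ν _ (hFm y)]
    have hfinβ := finite_torK_of893 K hdisc hclosed (tsupport ρ) hρc y
    have hfinj : {j : ℤ | ∃ x : Adl K, unip K x * torK K (α ^ j) * y ∈ tsupport ρ}.Finite :=
      Set.Finite.preimage (f := fun j : ℤ => α ^ j) hinj.injOn hfinβ
    have hzero : ∀ j ∉ hfinj.toFinset,
        ∫⁻ x, ENNReal.ofReal (ρ (pB893 K α (j, x) * y)) ∂ν = 0 := by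
      intro j hj
      have hj' : ¬ ∃ x : Adl K, unip K x * torK K (α ^ j) * y ∈ tsupport ρ := by
        simpa using hj
      have : ∀ x : Adl K, ENNReal.ofReal (ρ (pB893 K α (j, x) * y)) = 0 := by
        intro x
        have hx : ρ (pB893 K α (j, x) * y) = 0 := by
          by_contra hne
          exact hj' ⟨x, subset_tsupport ρ hne⟩
        rw [hx, ENNReal.ofReal_zero]
      simp only [this, lintegral_zero]
    rw [tsum_eq_sum hzero]
    refine (ENNReal.sum_lt_top.2 fun j _ => ?_).ne
    have := lintegral_unip_lt_top893 K ν ρ ρ.continuous hρc (torK K (α ^ j) * y)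
    simpa only [pB893_apply, mul_assoc] using this
  · -- the orbital integrals of `φ` vanish
    intro y hint
    rw [integral_prod _ hint, integral_countable hint.integral_prod_left]
    set T : ℤ → ℂ := fun j => ∫ x, f (g⁻¹ * unip K x * torK K α ^ j * y) ∂ν with hT
    have hterm : ∀ j : ℤ, (Measure.count : Measure ℤ).real {j} •
        ∫ x, φ ((pB893 K α (j, x))⁻¹ * y) ∂ν = T (-j) := by
      intro j
      rw [measureReal_def, Measure.count_singleton, ENNReal.toReal_one, one_smul]
      simp only [hφ, hT, pB893_inv]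
      set β' : Kˣ := α ^ (-j) with hβ'
      -- change of variables `x ↦ -(β' x)`
      have h2 := (hPF β').integral_comp (mulRatEquiv893 K β').measurableEmbedding
        (fun x => f (g⁻¹ * (unip K (-x) * torK K α ^ (-j) * y)))
      have h1 := integral_neg_eq_self
        (fun x => f (g⁻¹ * (unip K x * torK K α ^ (-j) * y))) ν
      rw [h2, h1]
      simp only [mul_assoc]
    simp only [hterm]
    have hneg := (Equiv.neg ℤ).tsum_eq T
    simp only [Equiv.neg_apply] at hneg
    rw [hneg]
    exact (hEK g y).tsum_eq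

end Fermat.Agent.LT.T3.H893

end
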