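import Mathlib
import Fermat.Agent.LT.T3.H893.EKKillB

/-!
# Row LT, tower T3, leaf T3.11 = FACT 1 (helper893): `T3.EKKillC`

OFF-MAIN.  `ekKillC_of893 : T1.LocCompC K → T1.AdeleLatticeC K → T1.AddFundDomC K → T3.EKKillC K`
(`T3.EKKillC` VERBATIM, Spec v2 of helper14, sha256 `44de320b8621`; the hypotheses are interface
Props of tower T1, Spec of helper54 `origin/helper54@675fbadd3`), and
`ekKillC_of_T1Out893 : T1.T1Out K → T3.EKKillC K`.

## Proof

NO Iwasawa integration formula, NO quotient measure, NO unimodularity of `GL₂(𝔸_K)`.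
`R(f)Ψ(g) = ∫ Ψ(y) φ(y) dy`, `φ(y) = f(g⁻¹ y)`.  Let `P = N(𝔸_K) ⋊ γ₀^ℤ`, parametrised by
`p (j, x) = n(x) γ₀ʲ` on `B = ℤ × 𝔸_K` with the measure `κ = count × ν`.  Take a continuous
`ρ ≥ 0` of compact support with `ρ = 1` on the support of `φ` (Urysohn) and
`S(y) = ∫_B ρ(p b · y) dκ(b)`; `S` is left `P`-invariant (translation invariance of `ν` and of
`count`), positive on the support of `φ`, and finite (`K` is discrete and closed in `𝔸_K`, so
only finitely many `j` contribute if `α` has infinite order).  Then (`Bruhat.lean`)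
`∫ Ψ φ = ∫_y ∫_b Ψ φ S⁻¹ ρ(p b y) = ∫_y Ψ S⁻¹ ρ ∫_b φ((p b)⁻¹ y) = 0`
by Fubini and the left invariance of `μ`; the inner integral is the EK sum, by the product formula
`ν(αX) = ν(X)` (`ProdFormula.lean`: from a fundamental domain of finite positive measure).
If `α` has finite order, every term of the EK sum vanishes (a summable periodic sequence) and the
same argument runs with `P = N(𝔸_K)`.
-/

set_option autoImplicit false
set_option linter.style.haveILetI false

open MeasureTheory NumberField
open scoped ENNReal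
open Fermat.Agent.LT.H556.A0

noncomputable section

namespace Fermat.Agent.LT.T3.H893

variable (K : Type) [Field K] [NumberField K]

/-- **T3.11 from the product formula for Haar measures.** -/
theorem ekKillC_of_prod893 (hLC : T1.LocCompC K) (hAL : T1.AdeleLatticeC K)
    (hPF : HaarProdC K) : EKKillC K := by
  intro μ hμ ν hν α f hf hfc hEK Ψ hΨ hΨN hΨT g
  letI : MeasurableSpace (Adl K) := borel (Adl K)
  haveI : BorelSpace (Adl K) := ⟨rfl⟩
  letI : MeasurableSpace (G K) := borel (G K)
  haveI : BorelSpace (G K) := ⟨rfl⟩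
  obtain ⟨⟨h1, h2, h3⟩, h4, h5, h6⟩ := hLC
  haveI := h1
  haveI := h2
  haveI := h3
  haveI := h4
  haveI := h5
  haveI := h6
  haveI := hμ
  haveI := hν
  by_cases hfo : IsOfFinOrder α
  · exact ekKill_finOrder893 K μ ν f hf hfc
      (ek_term_zero_of_finOrder893 K ν α hfo f hEK) Ψ hΨ hΨN g
  · exact ekKill_infOrder893 K hAL.1 hAL.2.1 μ ν (fun β => hPF ν hν β) α hfo f hf hfc hEK Ψ hΨ
      hΨN hΨT g

/-- **T3.11 = FACT 1** from the interface Props of tower T1. -/
theorem ekKillC_of893 (hLC : T1.LocCompC K) (hAL : T1.AdeleLatticeC K)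
    (hFD : T1.AddFundDomC K) : EKKillC K :=
  ekKillC_of_prod893 K hLC hAL (haarProd_of893 K hLC hFD)

/-- **T3.11** from the output of tower T1. -/
theorem ekKillC_of_T1Out893 (h : T1.T1Out K) : EKKillC K :=
  ekKillC_of893 K h.locComp h.adeleLattice h.addFundDom

end Fermat.Agent.LT.T3.H893

end
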