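import Mathlib
import Fermat.Agent.LT.T3.H893.NIntSpec

/-!
# Row LT, tower T3, leaf AS.4 `NIntC`: THE TOP of the cut of helper893

OFF-MAIN.  `nIntC_of893 : IwasawaFormC K → PureUpperC K → OutsideCosetC K → AffineC K → SplitC K →
LocValFinC K → LocValInfC K → ProdFormC K → AS.NIntC K` (`AS.NIntC` VERBATIM).
-/

set_option autoImplicit false
set_option linter.style.haveILetI false

open IsDedekindDomain NumberField MeasureTheory
open Fermat.Agent.LT.H556.A0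

noncomputable section

namespace Fermat.Agent.LT.T3.AS.N893

variable (K : Type) [Field K] [NumberField K]

/-- The coordinates of the translate `Δ + j c₀`. -/
theorem pureCoord_shift893 (A : ℤ × ℤ → ℂ) (β : InfinitePlace K → ℝ × ℝ → ℂ) (o₁ o₂ : ℤ)
    (l₁ l₂ : InfinitePlace K → ℝ) (n : ℕ) (α : Kˣ) (j : ℤ) :
    pureCoord K A β (((o₁, o₂), fun w => (l₁ w, l₂ w)) + j • coordTor K n α)
      = A (o₁ + j * n, o₂) * ∏ w : InfinitePlace K,
          β w (l₁ w + j * Real.log (w (α : K)), l₂ w) := by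
  unfold pureCoord coordTor
  simp only [Prod.smul_mk, Prod.mk_add_mk, Pi.add_apply, Pi.smul_apply]
  simp only [smul_eq_mul, mul_zero, add_zero, zsmul_eq_mul]

/-- The constant algebra of the top. -/
theorem top_algebra893 (ι : Type) [Fintype ι] (ca c₀ V q0 qn A : ℂ) (N y B : ι → ℂ) (j : ℤ)
    (hprod : qn * ∏ w, y w = 1) :
    ca * (c₀ * (V * q0 * qn ^ j * A) * ∏ w, (N w * y w ^ j) * B w)
      = (ca * c₀ * V * q0 * ∏ w, N w) * (A * ∏ w, B w) := by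
  have h1 : ∏ w, (N w * y w ^ j) * B w = (∏ w, N w) * (∏ w, y w) ^ j * ∏ w, B w := by
    rw [Finset.prod_mul_distrib, Finset.prod_mul_distrib, Finset.prod_zpow]
  have h2 : qn ^ j * (∏ w, y w) ^ j = 1 := by
    rw [← mul_zpow, hprod, one_zpow]
  rw [h1]
  calc ca * (c₀ * (V * q0 * qn ^ j * A) * ((∏ w, N w) * (∏ w, y w) ^ j * ∏ w, B w))
      = (ca * c₀ * V * q0 * ∏ w, N w) * (A * ∏ w, B w) * (qn ^ j * (∏ w, y w) ^ j) := by ring
    _ = (ca * c₀ * V * q0 * ∏ w, N w) * (A * ∏ w, B w) := by rw [h2, mul_one]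

/-- **THE TOP of AS.4.** -/
theorem nIntC_of893 (h1 : IwasawaFormC K) (h2 : PureUpperC K) (h3 : OutsideCosetC K)
    (h4 : AffineC K) (h5 : SplitC K) (h6 : LocValFinC K) (h7 : LocValInfC K)
    (h8 : ProdFormC K) : NIntC K := by
  intro hcplx ν hν 𝔫 h𝔫 v₀ hv₀ a₀ n hn hspan hcong α hα
  letI : MeasurableSpace (Adl K) := borel (Adl K)
  letI : MeasurableSpace (v₀.adicCompletion K) := borel (v₀.adicCompletion K)
  have hfr : Frame K 𝔫 v₀ a₀ n α := ⟨h𝔫, hv₀, hn, hspan, hcong, hα⟩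
  obtain ⟨ν₀, hν₀, c₀, hsplit⟩ := h5 hcplx ν hν 𝔫 h𝔫 v₀
  choose k₁ k' c₁ c₂ a hk₁ hk' hform using h1 α
  choose ca hca using fun g g' : G K => h4 ν hν (a g g')
  have hprodform := h8 hcplx 𝔫 v₀ a₀ n α hfr
  classical
  refine ⟨fun g g' =>
      if ∃ (j : ℤ) (X : Adl K), OutsideU K 𝔫 v₀
          (k₁ g g' * upperGL (c₁ g g' * T1.ratUnit K α ^ j) (c₂ g g') X * k' g g') then
        ca g g' * c₀
          * ((ν₀ (v₀.adicCompletionIntegers K : Set (v₀.adicCompletion K))).toReal : ℂ)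
          * (((Ideal.absNorm v₀.asIdeal : ℝ) ^
              (-(((ordA K v₀ (c₁ g g') + ordA K v₀ (c₂ g g') : ℤ) : ℝ)) / 2) : ℝ) : ℂ)
          * ∏ w : InfinitePlace K, ((‖((infU K w (c₁ g g') : ℂˣ) : ℂ)‖
              * ‖((infU K w (c₂ g g') : ℂˣ) : ℂ)‖ : ℝ) : ℂ)
      else 0,
    fun g g' => ((ordA K v₀ (c₁ g g'), ordA K v₀ (c₂ g g')),
      fun w => (Real.log ‖((infU K w (c₁ g g') : ℂˣ) : ℂ)‖,
        Real.log ‖((infU K w (c₂ g g') : ℂˣ) : ℂ)‖)), ?_⟩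
  intro A β f₀ F hf₀ hR hSat hF hAb g g' j
  obtain ⟨r, hr⟩ := hform g g' j
  -- the pure tensor in upper triangular form
  have hP : ∀ x : Adl K, pureFn K 𝔫 v₀ f₀ F (g⁻¹ * unip K x * torK K α ^ j * g')
      = (if OutsideU K 𝔫 v₀ (k₁ g g' * upperGL (c₁ g g' * T1.ratUnit K α ^ j) (c₂ g g')
            ((a g g' : Adl K) * x + r) * k' g g') then (1 : ℂ) else 0)
        * f₀ (upperGL (finU K v₀ (c₁ g g' * T1.ratUnit K α ^ j)) (finU K v₀ (c₂ g g'))
            (finHom K v₀ ((a g g' : Adl K) * x + r)))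
        * ∏ w : InfinitePlace K, F w (upperGL (infU K w (c₁ g g' * T1.ratUnit K α ^ j))
            (infU K w (c₂ g g')) (infHom K w ((a g g' : Adl K) * x + r))) := by
    intro x
    rw [hr x]
    exact h2 𝔫 v₀ f₀ F hf₀ hF (k₁ g g') (k' g g') (hk₁ g g') (hk' g g') _ _ _
  beta_reduce
  rw [pureCoord_shift893]
  by_cases hex : ∃ (j : ℤ) (X : Adl K), OutsideU K 𝔫 v₀
      (k₁ g g' * upperGL (c₁ g g' * T1.ratUnit K α ^ j) (c₂ g g') X * k' g g')
  · rw [if_pos hex]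
    obtain ⟨j₀, X₀, hX₀⟩ := hex
    -- the condition outside `S'` is the indicator of a coset
    have hind : ∀ X : Adl K,
        (if OutsideU K 𝔫 v₀ (k₁ g g' * upperGL (c₁ g g' * T1.ratUnit K α ^ j) (c₂ g g') X
            * k' g g') then (1 : ℂ) else 0)
          = (outGrp K 𝔫 v₀).indicator (fun _ => (1 : ℂ)) (X - X₀) := by
      intro X
      have hiff := h3 𝔫 v₀ a₀ n α hfr (k₁ g g') (k' g g') (hk₁ g g') (hk' g g')
        (c₁ g g') (c₂ g g') j₀ j X₀ X hX₀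
      by_cases hO : OutsideU K 𝔫 v₀ (k₁ g g' * upperGL (c₁ g g' * T1.ratUnit K α ^ j)
          (c₂ g g') X * k' g g')
      · rw [if_pos hO, Set.indicator_of_mem (hiff.1 hO)]
      · rw [if_neg hO, Set.indicator_of_notMem (fun h => hO (hiff.2 h))]
    -- the local functions
    set φ₀ : v₀.adicCompletion K → ℂ := fun x =>
      f₀ (upperGL (finU K v₀ (c₁ g g' * T1.ratUnit K α ^ j)) (finU K v₀ (c₂ g g'))
        (x + finHom K v₀ X₀)) with hφ₀
    set φ : InfinitePlace K → ℂ → ℂ := fun w z =>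
      F w (upperGL (infU K w (c₁ g g' * T1.ratUnit K α ^ j)) (infU K w (c₂ g g'))
        (z + infHom K w X₀)) with hφ
    set Q : Adl K → ℂ := fun Y => (outGrp K 𝔫 v₀).indicator (fun _ => (1 : ℂ)) Y
      * φ₀ (finHom K v₀ Y) * ∏ w : InfinitePlace K, φ w (infHom K w Y) with hQ
    have hPQ : (fun x : Adl K => pureFn K 𝔫 v₀ f₀ F (g⁻¹ * unip K x * torK K α ^ j * g'))
        = fun x : Adl K => Q ((a g g' : Adl K) * x + (r - X₀)) := by
      funext x
      rw [hP x, hind]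
      have e : (a g g' : Adl K) * x + r - X₀ = (a g g' : Adl K) * x + (r - X₀) := by ring
      have e2 : (a g g' : Adl K) * x + (r - X₀) + X₀ = (a g g' : Adl K) * x + r := by ring
      simp only [hQ, hφ₀, hφ]
      rw [e, ← map_add, e2]
      congr 1
      refine Finset.prod_congr rfl fun w _ => ?_
      rw [← map_add, e2]
    obtain ⟨hl1, hl2, hl3⟩ := h6 𝔫 v₀ a₀ n α hfr ν₀ hν₀ f₀ A hf₀ hR hSat (c₁ g g') (c₂ g g') j
      (finHom K v₀ X₀)
    have hw := fun w : InfinitePlace K =>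
      h7 α w (F w) (β w) (hF w) (hAb w) (c₁ g g') (c₂ g g') j (infHom K w X₀)
    obtain ⟨hQi, hQv⟩ := hsplit φ₀ φ hl1 hl2 (fun w => (hw w).1) (fun w => (hw w).2.1)
    obtain ⟨hPi, hPv⟩ := hca g g' (r - X₀) Q hQi
    rw [hPQ]
    refine ⟨hPi, ?_⟩
    rw [hPv, hQv, hl3]
    have hwv : ∀ w : InfinitePlace K, ∫ z : ℂ, φ w z
        = ((‖((infU K w (c₁ g g') : ℂˣ) : ℂ)‖ * ‖((infU K w (c₂ g g') : ℂˣ) : ℂ)‖
              * (w (α : K)) ^ j : ℝ) : ℂ)
          * β w (Real.log ‖((infU K w (c₁ g g') : ℂˣ) : ℂ)‖ + j * Real.log (w (α : K)),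
              Real.log ‖((infU K w (c₂ g g') : ℂˣ) : ℂ)‖) := fun w => (hw w).2.2
    simp_rw [hwv]
    have hpf : (((Ideal.absNorm v₀.asIdeal : ℝ) ^ (-(n : ℝ) / 2) : ℝ) : ℂ)
        * ∏ w : InfinitePlace K, ((w (α : K) : ℝ) : ℂ) = 1 := by
      rw [← Complex.ofReal_prod, ← Complex.ofReal_mul, hprodform, Complex.ofReal_one]
    have key := top_algebra893 (InfinitePlace K) (ca g g') c₀
      ((ν₀ (v₀.adicCompletionIntegers K : Set (v₀.adicCompletion K))).toReal : ℂ)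
      (((Ideal.absNorm v₀.asIdeal : ℝ) ^
          (-(((ordA K v₀ (c₁ g g') + ordA K v₀ (c₂ g g') : ℤ) : ℝ)) / 2) : ℝ) : ℂ)
      (((Ideal.absNorm v₀.asIdeal : ℝ) ^ (-(n : ℝ) / 2) : ℝ) : ℂ)
      (A (ordA K v₀ (c₁ g g') + j * n, ordA K v₀ (c₂ g g')))
      (fun w => ((‖((infU K w (c₁ g g') : ℂˣ) : ℂ)‖
          * ‖((infU K w (c₂ g g') : ℂˣ) : ℂ)‖ : ℝ) : ℂ))
      (fun w => ((w (α : K) : ℝ) : ℂ))
      (fun w => β w (Real.log ‖((infU K w (c₁ g g') : ℂˣ) : ℂ)‖ + j * Real.log (w (α : K)),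
          Real.log ‖((infU K w (c₂ g g') : ℂˣ) : ℂ)‖)) j hpf
    rw [← key]
    congr 2
    · push_cast
      ring
    · refine Finset.prod_congr rfl fun w _ => ?_
      push_cast
      ring
  · rw [if_neg hex, zero_mul]
    have hzero : (fun x : Adl K => pureFn K 𝔫 v₀ f₀ F (g⁻¹ * unip K x * torK K α ^ j * g'))
        = fun _ => (0 : ℂ) := by
      funext x
      rw [hP x, if_neg (fun h => hex ⟨j, _, h⟩)]
      simp
    rw [hzero]
    exact ⟨integrable_zero _ _ _, integral_zero _ _⟩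

end Fermat.Agent.LT.T3.AS.N893

end
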